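import Fermat.Agent.LindelofZeros.Window
import Fermat.Agent.ZeroOrdinates.Landau

/-!
# The number of zeros in a short interval under the hypothesis of Lindelöf

`N (T + h) - N T ∼ (h / 2π) log T` for every fixed `h > 0` (Littlewood): on a line
`re s = 1/2 + δ` the Poisson sums over the zeros have mean `log T / 2 + o (log T)`, and for small
`δ` their integral over `[a, b]` is nearly `π` times the number of ordinates in it.
-/

set_option autoImplicit false

noncomputable section

namespace FA.LindelofZeros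

open Complex Set Filter MeasureTheory FA.RiemannMangoldt FA.ExplicitFormula
open FA.ZeroFree (ell)
open scoped Real Topology

/-- A line free of zeros. -/
theorem exists_free_line {δ₀ : ℝ} (hδ : 0 < δ₀) :
    ∃ δ : ℝ, δ₀ / 2 < δ ∧ δ < δ₀ ∧ ∀ ρ, xiFn ρ = 0 → ρ.re ≠ 1 / 2 + δ := by
  have hc : ((fun ρ : ℂ => ρ.re - 1 / 2) '' ⋃ n : ℕ, (↑(zerosUpTo (n : ℝ)) : Set ℂ)).Countable :=
    (countable_iUnion fun n => Finset.countable_toSet _).image _
  obtain ⟨δ, hδ', hmem⟩ := (hc.dense_compl ℝ).exists_mem_open isOpen_Ioo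
    (nonempty_Ioo.2 (show δ₀ / 2 < δ₀ by linarith))
  refine ⟨δ, hmem.1, hmem.2, fun ρ hρ e => hδ' ⟨ρ, mem_iUnion.2 ⟨⌈|ρ.im|⌉₊,
    Finset.mem_coe.2 (mem_zerosUpTo.2 ⟨hρ, Nat.le_ceil _⟩)⟩, ?_⟩⟩
  simp only
  linarith

/-- The two one-sided comparisons of the kernel with the indicator of the window. -/
theorem indicator_kern_le {δ η a b β γ T h : ℝ} (hδ : 0 < δ) (hη : 0 < η) (hab : a ≤ b)
    (ha : a + η ≤ T) (hb : T + h + η ≤ b) :
    (if T < γ ∧ γ ≤ T + h then π else 0) ≤ kern (1 / 2 + δ - β) γ a b + 3 * δ / η +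
      2 * (if δ / 2 ≤ |β - 1 / 2| then π else 0) := by
  have hk := abs_le.1 (abs_kern_le (1 / 2 + δ - β) γ a b)
  have h3 : 0 ≤ 3 * δ / η := by positivity
  rcases le_or_gt (δ / 2) |β - 1 / 2| with h | h
  · rw [if_pos h]
    split_ifs <;> linarith [Real.pi_pos]
  rw [if_neg (not_le.2 h)]
  obtain ⟨h1, h2⟩ := abs_lt.1 h
  split_ifs with hw
  · have k1 := kern_ge (show 0 < 1 / 2 + δ - β by linarith) hη (show a + η ≤ γ by linarith [hw.1])
      (show γ + η ≤ b by linarith [hw.2])
    have k2 : 2 * ((1 / 2 + δ - β) / η) ≤ 3 * δ / η := by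
      rw [← mul_div_assoc]
      exact div_le_div_of_nonneg_right (by linarith) hη.le
    linarith
  · have := kern_nonneg (γ := γ) (show 0 < 1 / 2 + δ - β by linarith) hab
    linarith

theorem kern_le_indicator {δ η a b β γ T h : ℝ} (hδ : 0 < δ) (hη : 0 < η)
    (ha : T + η ≤ a) (hb : b + η ≤ T + h) :
    kern (1 / 2 + δ - β) γ a b ≤ (if T < γ ∧ γ ≤ T + h then π else 0) + 3 * δ / η +
      (if δ / 2 ≤ |β - 1 / 2| then π else 0) := by
  have hk := abs_le.1 (abs_kern_le (1 / 2 + δ - β) γ a b)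
  have h3 : 0 ≤ 3 * δ / η := by positivity
  rcases le_or_gt (δ / 2) |β - 1 / 2| with h | h
  · rw [if_pos h]
    split_ifs <;> linarith [Real.pi_pos]
  rw [if_neg (not_le.2 h)]
  obtain ⟨h1, h2⟩ := abs_lt.1 h
  split_ifs with hw
  · linarith
  · have hout : γ + η ≤ a ∨ b + η ≤ γ := by
      rcases not_and_or.1 hw with h' | h'
      · exact Or.inl (by linarith [not_lt.1 h'])
      · exact Or.inr (by linarith [not_le.1 h'])
    have k1 := kern_le_outside (show 0 < 1 / 2 + δ - β by linarith) hη hout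
    have k2 : (1 / 2 + δ - β) / η ≤ 3 * δ / η :=
      div_le_div_of_nonneg_right (by linarith) hη.le
    linarith

/-- **Littlewood's theorem on the zeros in a fixed window.** -/
theorem tendsto_zeroCount_window (hS : FA.Backlund.ZerosSparse) {h : ℝ} (hh : 0 < h) :
    Tendsto (fun T => ((zeroCount (T + h) : ℝ) - zeroCount T) / Real.log T) atTop
      (𝓝 (h / (2 * π))) := by
  classical
  rw [Metric.tendsto_nhds]
  intro ε hε
  obtain ⟨e, he⟩ : ∃ e, e = ε / 6 := ⟨_, rfl⟩
  have he0 : 0 < e := he ▸ by positivity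
  obtain ⟨η, hη⟩ : ∃ η, η = min (h / 4) e := ⟨_, rfl⟩
  have hη0 : 0 < η := hη ▸ lt_min (by linarith) he0
  have hηh : η ≤ h / 4 := hη ▸ min_le_left _ _
  have hηe : η ≤ e := hη ▸ min_le_right _ _
  obtain ⟨C₁, hC₁, hfar⟩ := exists_far_le
  obtain ⟨C₂, hC₂, hnear⟩ := exists_near_weight
  obtain ⟨H, hH⟩ : ∃ H, H = 3 * h + 2 := ⟨_, rfl⟩
  have hH2 : 2 ≤ H := by linarith
  obtain ⟨K₀, hK₀⟩ : ∃ K₀, K₀ = H * (C₁ * 14) + 1 := ⟨_, rfl⟩
  have hK₀1 : 1 ≤ K₀ := by
    have : 0 ≤ H * (C₁ * 14) := by positivity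
    linarith
  obtain ⟨A, hA⟩ : ∃ A, A = max 1 (K₀ / e) := ⟨_, rfl⟩
  have hA1 : 1 ≤ A := hA ▸ le_max_left _ _
  have hAK : K₀ * (1 / A ^ 2) ≤ e := by
    have h1 : K₀ / e ≤ A := hA ▸ le_max_right _ _
    rw [div_le_iff₀ he0] at h1
    rw [mul_one_div, div_le_iff₀ (by positivity)]
    nlinarith [mul_le_mul_of_nonneg_left hA1 (show 0 ≤ A * e by positivity)]
  obtain ⟨R, hR⟩ : ∃ R, R = A + H := ⟨_, rfl⟩
  obtain ⟨W, hW⟩ : ∃ W, W = C₂ * (1 + R ^ 2) * 7 := ⟨_, rfl⟩
  have hW0 : 0 ≤ W := by rw [hW]; positivity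
  obtain ⟨δ₀, hδ₀⟩ : ∃ δ₀, δ₀ = min (1 / 2) (min (e / K₀) (e * η / (3 * W + 1))) := ⟨_, rfl⟩
  have hδ₀0 : 0 < δ₀ :=
    hδ₀ ▸ lt_min (by norm_num) (lt_min (by positivity) (by positivity))
  obtain ⟨δ, hδ1, hδlt, hfree⟩ := exists_free_line hδ₀0
  have hδ : 0 < δ := by linarith
  have hδh : δ ≤ 1 / 2 := hδlt.le.trans (hδ₀ ▸ min_le_left _ _)
  have hδK : K₀ * δ ≤ e := by
    have := hδlt.le.trans (hδ₀ ▸ (min_le_right _ _).trans (min_le_left _ _) : δ₀ ≤ e / K₀)
    rwa [le_div_iff₀ (by linarith), mul_comm] at this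
  have hδW : 3 * δ / η * W ≤ e := by
    have := hδlt.le.trans
      (hδ₀ ▸ (min_le_right _ _).trans (min_le_right _ _) : δ₀ ≤ e * η / (3 * W + 1))
    rw [le_div_iff₀ (by linarith)] at this
    rw [div_mul_eq_mul_div, div_le_iff₀ hη0]
    linarith
  obtain ⟨n, hn⟩ : ∃ n, n = ⌈H / (δ / 2)⌉₊ := ⟨_, rfl⟩
  have hnH : H ≤ n * (δ / 2) := by
    rw [← div_le_iff₀ (by positivity), hn]
    exact Nat.le_ceil _
  obtain ⟨T₁, hT₁⟩ := exists_segment hδ hδh hS hfree n he0
  obtain ⟨T₂, hT₂⟩ := exists_off_le hS (half_pos hδ) (show 0 ≤ R by linarith) he0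
  filter_upwards [eventually_ge_atTop (T₁ + H), eventually_ge_atTop T₂,
    eventually_ge_atTop (4 * H + 8), Real.tendsto_log_atTop.eventually_ge_atTop (18 * H / e)]
    with T hT1 hT2 hT4 hTl
  obtain ⟨L, hL⟩ : ∃ L, L = Real.log T := ⟨_, rfl⟩
  rw [← hL] at hTl ⊢
  have hL0 : 0 < L := hL ▸ Real.log_pos (by linarith)
  have hHL : 18 * H ≤ e * L := by rwa [div_le_iff₀ he0, mul_comm L] at hTl
  obtain ⟨S, hS'⟩ : ∃ S, S = nearZeros T R := ⟨_, rfl⟩
  -- the integral over a segment near `T`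
  have key : ∀ a b : ℝ, T - H / 2 ≤ a → a ≤ b → b ≤ T + H / 2 →
      |∑ ρ ∈ S, (zeroWeight ρ : ℝ) * kern (1 / 2 + δ - ρ.re) ρ.im a b - (b - a) / 2 * L| ≤
        5 * (e * L) := fun a b ha hab hb => by
    obtain ⟨E, hEd⟩ : ∃ E, E = C₁ * (δ + 1 / A ^ 2) * (14 * L) := ⟨_, rfl⟩
    have hE : ∀ y ∈ Icc a b, |(xiLogDeriv (((1 / 2 + δ : ℝ) : ℂ) + y * I)).re -
        ∑ ρ ∈ S, lineTerm (1 / 2 + δ) y ρ| ≤ E := fun y hy => by
      refine (hfar δ y A S hδ.le (by linarith) hA1 (fun h0 => hfree _ h0 (by simp))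
        (hS' ▸ mirror_mem_nearZeros) fun ρ hρ hρS => ?_).trans ?_
      · rw [hS', mem_nearZeros, not_and, not_le] at hρS
        have k1 := hρS hρ
        have k2 := abs_sub_le ρ.im y T
        rw [abs_sub_comm ρ.im y] at k2
        have k3 : |y - T| ≤ H := by
          rw [abs_le]
          constructor <;> linarith [hy.1, hy.2]
        linarith
      · rw [hEd]
        refine mul_le_mul_of_nonneg_left ?_ (by positivity)
        have k1 : ell y ≤ ell (2 * T) := by
          rw [ell, ell, abs_of_pos (show 0 < y by linarith [hy.1]),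
            abs_of_pos (show 0 < 2 * T by linarith)]
          exact Real.log_le_log (by linarith [hy.1]) (by linarith [hy.2])
        have k2 := FA.ZeroOrdinates.ell_le_log' (T := 2 * T) (by linarith)
        rw [Real.log_mul (by norm_num) (by linarith), ← hL] at k2
        have k3 : Real.log 2 ≤ L := hL ▸ Real.log_le_log (by norm_num) (by linarith)
        linarith
    have h1 := abs_kernSum_sub_le S (by linarith) (by linarith) (show 4 ≤ a by linarith) hab
      (by linarith) hfree hE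
    have h2 := hT₁ a b (by linarith) hab (by linarith)
    have h3 : Real.log a ≤ L + 1 := by
      have := Real.log_le_log (show 0 < a by linarith) (show a ≤ 2 * T by linarith)
      rw [Real.log_mul (by norm_num) (by linarith), ← hL] at this
      linarith [Real.log_two_lt_d9]
    have h4 : L - 1 ≤ Real.log a := by
      have := Real.log_le_log (show 0 < T by linarith) (show T ≤ 2 * a by linarith)
      rw [Real.log_mul (by norm_num) (by linarith), ← hL] at this
      linarith [Real.log_two_lt_d9]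
    have hbH : b - a ≤ H := by linarith
    have hba : 0 ≤ b - a := by linarith
    have h5 : (b - a) * E ≤ 2 * e * L := by
      rw [hEd, show (b - a) * (C₁ * (δ + 1 / A ^ 2) * (14 * L)) =
        (b - a) * (C₁ * 14) * ((δ + 1 / A ^ 2) * L) by ring]
      have : (b - a) * (C₁ * 14) ≤ K₀ := by
        have := mul_le_mul_of_nonneg_right hbH (show 0 ≤ C₁ * 14 by positivity)
        linarith
      refine (mul_le_mul_of_nonneg_right this (by positivity)).trans ?_
      rw [← mul_assoc, mul_add]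
      exact mul_le_mul_of_nonneg_right (by linarith) hL0.le
    have h6 : |(b - a) / 2 * Real.log a - (b - a) / 2 * L| ≤ H := by
      rw [← mul_sub, abs_mul, abs_of_nonneg (by linarith : 0 ≤ (b - a) / 2)]
      calc (b - a) / 2 * |Real.log a - L| ≤ H * 1 := mul_le_mul (by linarith)
            (by rw [abs_le]; constructor <;> linarith) (abs_nonneg _) (by linarith)
        _ = H := mul_one H
    have h7 : e * Real.log a ≤ e * (2 * L) := by
      refine mul_le_mul_of_nonneg_left ?_ he0.le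
      rw [hL, show (2 : ℝ) * Real.log T = Real.log (T ^ 2) by rw [Real.log_pow]; norm_num]
      exact Real.log_le_log (by linarith) (by nlinarith)
    have h8 : (b - a) * 17 ≤ 17 * H := by linarith
    rw [mul_add] at h1
    rw [abs_le] at h1 h6 ⊢
    constructor <;> linarith
  -- the zeros far from the line and the total
  have hoff := hT₂ T hT2
  rw [← hS', ← hL] at hoff
  have hw : ∑ ρ ∈ S, (zeroWeight ρ : ℝ) ≤ W * L := by
    rw [hS', hW]
    refine (hnear T R).trans ?_
    rw [mul_assoc (C₂ * (1 + R ^ 2)) 7 L, hL]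
    exact mul_le_mul_of_nonneg_left (FA.ZeroOrdinates.ell_le_log' (by linarith)) (by positivity)
  have hw' : (∑ ρ ∈ S, (zeroWeight ρ : ℝ)) * (3 * δ / η) ≤ e * L := by
    refine (mul_le_mul_of_nonneg_right hw (by positivity)).trans ?_
    rw [mul_right_comm, mul_comm W]
    exact mul_le_mul_of_nonneg_right hδW hL0.le
  obtain ⟨D, hD⟩ : ∃ D, D = (zeroCount (T + h) : ℝ) - zeroCount T := ⟨_, rfl⟩
  have hwin : ∑ ρ ∈ S, (zeroWeight ρ : ℝ) * (if T < ρ.im ∧ ρ.im ≤ T + h then π else 0) =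
      D * π := by
    rw [hD, zeroCount_sub_eq (show 0 ≤ T by linarith) hh.le (show h ≤ R by linarith), ← hS',
      Finset.sum_filter, Finset.sum_mul]
    exact Finset.sum_congr rfl fun ρ _ => by split_ifs <;> simp
  have hoff' : ∑ ρ ∈ S, (zeroWeight ρ : ℝ) * (if δ / 2 ≤ |ρ.re - 1 / 2| then π else 0) ≤
      e * L * 4 := by
    refine le_trans (le_of_eq ?_) (mul_le_mul hoff Real.pi_le_four Real.pi_pos.le (by positivity))
    rw [Finset.sum_filter, Finset.sum_mul]
    exact Finset.sum_congr rfl fun ρ _ => by split_ifs <;> simp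
  -- the upper bound
  have hup : D * π ≤ h / 2 * L + 15 * (e * L) := by
    have hs := Finset.sum_le_sum fun ρ (_ : ρ ∈ S) => mul_le_mul_of_nonneg_left
      (indicator_kern_le (a := T - η) (b := T + h + η) (β := ρ.re) (γ := ρ.im) (T := T) (h := h)
        hδ hη0 (by linarith) (by linarith) le_rfl) (Nat.cast_nonneg (α := ℝ) (zeroWeight ρ))
    simp only [mul_add, Finset.sum_add_distrib, mul_left_comm _ (2 : ℝ), ← Finset.mul_sum,
      ← Finset.sum_mul, hwin] at hs
    have k := (abs_le.1 (key (T - η) (T + h + η) (by linarith) (by linarith) (by linarith))).2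
    have := mul_le_mul_of_nonneg_right hηe hL0.le
    linarith
  -- the lower bound
  have hlow : h / 2 * L - 15 * (e * L) ≤ D * π := by
    have hs := Finset.sum_le_sum fun ρ (_ : ρ ∈ S) => mul_le_mul_of_nonneg_left
      (kern_le_indicator (a := T + η) (b := T + h - η) (β := ρ.re) (γ := ρ.im) (T := T) (h := h)
        hδ hη0 le_rfl (by linarith)) (Nat.cast_nonneg (α := ℝ) (zeroWeight ρ))
    simp only [mul_add, Finset.sum_add_distrib, ← Finset.sum_mul, hwin] at hs
    have k := (abs_le.1 (key (T + η) (T + h - η) (by linarith) (by linarith) (by linarith))).1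
    have := mul_le_mul_of_nonneg_right hηe hL0.le
    linarith
  rw [← hD, Real.dist_eq, show D / L - h / (2 * π) = (D * π - h / 2 * L) / (L * π) by field_simp,
    abs_div, abs_of_pos (show 0 < L * π by positivity), div_lt_iff₀ (by positivity), abs_lt]
  have h3 : 3 * (e * L) ≤ π * (e * L) :=
    mul_le_mul_of_nonneg_right Real.pi_gt_three.le (by positivity)
  have h4 : ε * (L * π) = 6 * (π * (e * L)) := by rw [he]; ring
  have := mul_pos he0 hL0
  constructor <;> linarith

end FA.LindelofZeros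

end
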