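import Fermat.Agent.LindelofBacklund.Main
import Fermat.Agent.SecondMoment.Main

/-!
# The hypothesis of Lindelöf and the moments of `ζ` on the critical line

A large value of `ζ (1/2 + it)` persists on an interval of length `≫ |ζ| / t`, as `ζ'` is `O (t)`,
so bounds for all the moments give the hypothesis of Lindelöf (Hardy and Littlewood).
-/

set_option autoImplicit false

noncomputable section

namespace FA.LindelofZeros

open Complex Metric Set MeasureTheory
open FA.Backlund (LineBound)

/-- The modulus of `ζ` on the critical line. -/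
def critMod (t : ℝ) : ℝ := ‖riemannZeta (1 / 2 + t * I)‖

/-- All moments are `O (T ^ (1 + ε))`. -/
def MomentsBounded : Prop :=
  ∀ k : ℕ, 1 ≤ k → ∀ ε : ℝ, 0 < ε → ∃ C : ℝ, ∀ T : ℝ, 1 ≤ T →
    (∫ t in (0 : ℝ)..T, critMod t ^ (2 * k)) ≤ C * T ^ (1 + ε)

theorem continuous_critMod : Continuous critMod := FA.SecondMoment.continuous_zeta_line.norm

theorem critMod_nonneg (t : ℝ) : 0 ≤ critMod t := norm_nonneg _

theorem momentsBounded_of_lineBound (hLH : ∀ ε : ℝ, 0 < ε → LineBound (1 / 2) ε) :
    MomentsBounded := by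
  intro k hk ε hε
  obtain ⟨e, he⟩ : ∃ e : ℝ, e = ε / (2 * k : ℕ) := ⟨_, rfl⟩
  have hk0 : (0 : ℝ) < (2 * k : ℕ) := Nat.cast_pos.2 (by omega)
  have he0 : 0 < e := he ▸ div_pos hε hk0
  obtain ⟨C, hC⟩ := hLH e he0
  obtain ⟨K, hK⟩ := (isCompact_Icc (a := (0 : ℝ)) (b := 1)).exists_bound_of_continuousOn
    continuous_critMod.continuousOn
  refine ⟨(|C| + |K|) ^ (2 * k), fun T hT => ?_⟩
  have hb : ∀ t ∈ Icc (0 : ℝ) T, critMod t ≤ (|C| + |K|) * T ^ e := fun t ht => by
    have h1 : 1 ≤ T ^ e := Real.one_le_rpow hT he0.le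
    rcases le_total t 1 with h | h
    · have := (hK t ⟨ht.1, h⟩).trans (le_abs_self K)
      rw [Real.norm_of_nonneg (critMod_nonneg t)] at this
      nlinarith [abs_nonneg C, abs_nonneg K]
    · have h2 := hC t (by rwa [abs_of_nonneg ht.1])
      rw [abs_of_nonneg ht.1] at h2
      push_cast at h2
      refine h2.trans (mul_le_mul ((le_abs_self C).trans (by linarith [abs_nonneg K]))
        (Real.rpow_le_rpow ht.1 ht.2 he0.le) (Real.rpow_nonneg ht.1 _) (by positivity))
  calc (∫ t in (0 : ℝ)..T, critMod t ^ (2 * k))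
      ≤ ∫ _t in (0 : ℝ)..T, ((|C| + |K|) * T ^ e) ^ (2 * k) :=
        intervalIntegral.integral_mono_on (by linarith)
          ((continuous_critMod.pow _).intervalIntegrable _ _) intervalIntegrable_const
          fun t ht => pow_le_pow_left₀ (critMod_nonneg t) (hb t ht) _
    _ = (|C| + |K|) ^ (2 * k) * (T * (T ^ e) ^ (2 * k)) := by
        rw [intervalIntegral.integral_const, smul_eq_mul, sub_zero, mul_pow]
        ring
    _ = _ := by
        rw [← Real.rpow_mul_natCast (by linarith), he, div_mul_cancel₀ _ hk0.ne',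
          Real.rpow_add (by linarith), Real.rpow_one]

/-- `ζ'` is `O (t)` on the critical line, in the form of a Lipschitz bound on `[t, 2 t]`. -/
theorem critMod_lipschitz {t u : ℝ} (ht : 2 ≤ t) (h1 : t ≤ u) (h2 : u ≤ 2 * t) :
    critMod t - critMod u ≤ 100 * t * (u - t) := by
  obtain ⟨f, hf⟩ : ∃ f : ℝ → ℂ, f = fun v : ℝ => riemannZeta (1 / 2 + v * I) := ⟨_, rfl⟩
  have hne : ∀ w : ℂ, 1 ≤ w.im → w ≠ 1 := fun w hw e => by rw [e] at hw; norm_num at hw
  have hd : ∀ v ∈ Icc t (2 * t),
      HasDerivWithinAt f (deriv riemannZeta (1 / 2 + v * I) * I) (Icc t (2 * t)) v := by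
    intro v hv
    have hin : HasDerivAt (fun v : ℝ => (1 / 2 + v * I : ℂ)) I v := by
      simpa using (((hasDerivAt_id' (v : ℂ)).mul_const I).const_add (1 / 2)).comp_ofReal
    rw [hf]
    exact ((differentiableAt_riemannZeta (hne _ (by simp; linarith [hv.1]))).hasDerivAt.comp v
      hin).hasDerivWithinAt
  have hb : ∀ v ∈ Icc t (2 * t), ‖deriv riemannZeta (1 / 2 + v * I) * I‖ ≤ 100 * t := by
    intro v hv
    obtain ⟨c, hc⟩ : ∃ c : ℂ, c = 1 / 2 + v * I := ⟨_, rfl⟩
    have hre : c.re = 1 / 2 := by simp [hc]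
    have him : c.im = v := by simp [hc]
    rw [← hc, norm_mul, norm_I, mul_one]
    have hball : ∀ w ∈ closedBall c (1 / 4),
        1 / 4 ≤ w.re ∧ w.re ≤ 3 ∧ 1 ≤ w.im ∧ w.im ≤ v + 1 := fun w hw => by
      rw [mem_closedBall, dist_eq_norm] at hw
      have k1 := abs_le.1 ((abs_re_le_norm (w - c)).trans hw)
      have k2 := abs_le.1 ((abs_im_le_norm (w - c)).trans hw)
      rw [sub_re, hre] at k1
      rw [sub_im, him] at k2
      exact ⟨by linarith, by linarith, by linarith [hv.1], by linarith⟩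
    refine (norm_deriv_le_of_forall_mem_sphere_norm_le (R := 1 / 4) (C := 5 * (v + 4))
      (by norm_num) ?_
      fun w hw => ?_).trans ?_
    · refine DifferentiableOn.diffContOnCl (closure_ball c (by norm_num : (1 / 4 : ℝ) ≠ 0) ▸
        fun w hw => ?_)
      exact (differentiableAt_riemannZeta (hne w (hball w hw).2.2.1)).differentiableWithinAt
    · obtain ⟨a1, a2, a3, a4⟩ := hball w (sphere_subset_closedBall hw)
      refine (FA.DLVP.norm_zeta_crude a1 a2 (a3.trans (le_abs_self _))).trans ?_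
      rw [abs_of_nonneg (by linarith)]
      linarith
    · rw [div_le_iff₀ (by norm_num)]
      linarith [hv.2]
  have key := (convex_Icc t (2 * t)).norm_image_sub_le_of_norm_hasDerivWithin_le hd hb
    (left_mem_Icc.2 (by linarith)) ⟨h1, h2⟩
  rw [Real.norm_of_nonneg (by linarith), norm_sub_rev] at key
  have hcr : ∀ v : ℝ, critMod v = ‖f v‖ := fun v => by rw [hf]; rfl
  rw [hcr, hcr]
  exact (norm_sub_norm_le _ _).trans key

theorem lineBound_of_momentsBounded (h : MomentsBounded) {ε : ℝ} (hε : 0 < ε) :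
    LineBound (1 / 2) ε := by
  obtain ⟨k, hk⟩ : ∃ k : ℕ, k = ⌈2 / ε⌉₊ + 1 := ⟨_, rfl⟩
  have hkε : 2 ≤ ε * k := by
    have := Nat.le_ceil (2 / ε)
    rw [div_le_iff₀ hε] at this
    rw [hk, Nat.cast_add, Nat.cast_one]
    nlinarith
  obtain ⟨C, hC⟩ := h k (by omega) 1 one_pos
  obtain ⟨D, hD⟩ : ∃ D : ℝ, D = 2 ^ (2 * k) * 200 * (|C| * 4) + 1 := ⟨_, rfl⟩
  have hD1 : 1 ≤ D := by rw [hD]; linarith [show 0 ≤ 2 ^ (2 * k) * 200 * (|C| * 4) by positivity]
  have hbig : ∀ t : ℝ, 2 ≤ t → critMod t ≤ D * t ^ ε := fun t ht => by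
    have ht1 : 1 ≤ t ^ ε := Real.one_le_rpow (by linarith) hε.le
    obtain ⟨V, hV⟩ : ∃ V, V = critMod t := ⟨_, rfl⟩
    rw [← hV]
    rcases le_or_gt V 1 with hV1 | hV1
    · nlinarith
    obtain ⟨w, hw⟩ : ∃ w, w = V / (200 * t) := ⟨_, rfl⟩
    have hw0 : 0 < w := hw ▸ div_pos (by linarith) (by linarith)
    have hVle : V ≤ 5 * (t + 3) := by
      have := FA.DLVP.norm_zeta_crude (s := 1 / 2 + t * I) (by norm_num) (by norm_num)
        (by simp; rw [abs_of_nonneg] <;> linarith)
      rw [hV]
      refine this.trans (le_of_eq ?_)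
      simp [abs_of_nonneg (show 0 ≤ t by linarith)]
    have hwt : w ≤ t := by
      rw [hw, div_le_iff₀ (by linarith)]
      nlinarith
    have hlow : ∀ u ∈ Icc t (t + w), (V / 2) ^ (2 * k) ≤ critMod u ^ (2 * k) := fun u hu => by
      refine pow_le_pow_left₀ (by linarith) ?_ _
      have k1 := critMod_lipschitz ht hu.1 (by linarith [hu.2])
      have k2 : 100 * t * (u - t) ≤ 100 * t * w :=
        mul_le_mul_of_nonneg_left (by linarith [hu.2]) (by linarith)
      have k3 : 100 * t * w = V / 2 := by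
        rw [hw]
        field_simp
        ring
      rw [← hV] at k1
      linarith
    have hint : ∀ a b, IntervalIntegrable (fun u => critMod u ^ (2 * k)) volume a b :=
      fun a b => (continuous_critMod.pow _).intervalIntegrable a b
    have hsub : (V / 2) ^ (2 * k) * w ≤ ∫ u in (0 : ℝ)..2 * t, critMod u ^ (2 * k) := by
      calc (V / 2) ^ (2 * k) * w = ∫ _u in t..t + w, (V / 2) ^ (2 * k) := by
            rw [intervalIntegral.integral_const, smul_eq_mul]
            ring
        _ ≤ ∫ u in t..t + w, critMod u ^ (2 * k) := intervalIntegral.integral_mono_on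
            (by linarith) intervalIntegrable_const (hint _ _) hlow
        _ ≤ _ := intervalIntegral.integral_mono_interval (by linarith) (by linarith) (by linarith)
            (Filter.Eventually.of_forall fun u => pow_nonneg (critMod_nonneg u) _) (hint _ _)
    have hupp := hsub.trans (hC (2 * t) (by linarith))
    rw [show (1 : ℝ) + 1 = ((2 : ℕ) : ℝ) by norm_num, Real.rpow_natCast, hw, div_pow] at hupp
    have hupp' : V ^ (2 * k + 1) ≤ D * t ^ 3 := by
      have h3 : C * (2 * t) ^ 2 ≤ |C| * (2 * t) ^ 2 :=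
        mul_le_mul_of_nonneg_right (le_abs_self C) (sq_nonneg _)
      have h4 := hupp.trans h3
      rw [div_mul_div_comm, div_le_iff₀ (by positivity), ← pow_succ] at h4
      rw [hD]
      nlinarith [show 0 ≤ t ^ 3 by positivity]
    by_contra hcon
    push Not at hcon
    have h5 := pow_lt_pow_left₀ hcon (by positivity) (show 2 * k + 1 ≠ 0 by omega)
    have h6 : D * t ^ 3 ≤ (D * t ^ ε) ^ (2 * k + 1) := by
      rw [mul_pow, ← Real.rpow_mul_natCast (by linarith)]
      refine mul_le_mul (le_self_pow₀ hD1 (by omega)) ?_ (by positivity) (by positivity)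
      rw [← Real.rpow_natCast t 3]
      refine Real.rpow_le_rpow_of_exponent_le (by linarith) ?_
      push_cast
      linarith
    linarith
  obtain ⟨K, hK⟩ := (isCompact_Icc (a := (0 : ℝ)) (b := 2)).exists_bound_of_continuousOn
    continuous_critMod.continuousOn
  refine ⟨D + |K|, fun t ht => ?_⟩
  have hpos : ∀ u : ℝ, 1 ≤ u → critMod u ≤ (D + |K|) * u ^ ε := fun u hu => by
    have h1 : 1 ≤ u ^ ε := Real.one_le_rpow hu hε.le
    rcases le_total u 2 with h | h
    · have := (hK u ⟨by linarith, h⟩).trans (le_abs_self K)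
      rw [Real.norm_of_nonneg (critMod_nonneg u)] at this
      nlinarith [abs_nonneg K]
    · have := hbig u h
      nlinarith [abs_nonneg K]
  rcases abs_choice t with h | h
  · rw [h] at ht ⊢
    have := hpos t ht
    rw [critMod] at this
    simpa using this
  · rw [h] at ht ⊢
    rw [← FA.BohrLandau.norm_zeta_neg]
    have := hpos (-t) ht
    rw [critMod] at this
    simpa using this

/-- **The theorem of Hardy and Littlewood.** -/
theorem lindelof_iff_momentsBounded :
    (∀ ε : ℝ, 0 < ε → LineBound (1 / 2) ε) ↔ MomentsBounded :=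
  ⟨momentsBounded_of_lineBound, fun h _ hε => lineBound_of_momentsBounded h hε⟩

end FA.LindelofZeros

end
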