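import Fermat.Agent.LiCriterion.Coefficients
import Fermat.Agent.PairCorr.Windows

/-!
# The Poisson sums over the zeros

`re (ξ'/ξ) (σ + it)` is the sum of the `(σ - β) / ((σ - β)² + (t - γ)²)`. As `ρ` and `1 - conj ρ`
have the same ordinate and multiplicity, the zeros at distance at least `A` from `t` give at most
`O ((σ - 1/2 + A⁻²) log t)` of it.
-/

set_option autoImplicit false

noncomputable section

namespace FA.LindelofZeros

open Complex Filter Topology FA.RiemannMangoldt FA.ExplicitFormula FA.LiCriterion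
open FA.ZeroFree (ell)
open FA.PairCorrelation (cauchy exists_window_sum)
open scoped ComplexConjugate

/-- Conjugate zeros have the same multiplicity. -/
theorem zeroWeight_conj (ρ : ℂ) : zeroWeight (conj ρ) = zeroWeight ρ := by
  have key : ∀ (z : ℂ) (n : ℕ), analyticOrderAt xiFn z = n →
      analyticOrderAt xiFn (conj z) = n := fun z n hn => by
    obtain ⟨g, hg, hg0, he⟩ :=
      (differentiable_xiFn.analyticAt z).analyticOrderAt_eq_natCast.1 hn
    have ht : Tendsto (fun w : ℂ => conj w) (𝓝 (conj z)) (𝓝 z) := by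
      have := (Complex.continuous_conj.tendsto (conj z))
      rwa [Complex.conj_conj] at this
    refine (differentiable_xiFn.analyticAt (conj z)).analyticOrderAt_eq_natCast.2
      ⟨conj ∘ g ∘ conj, ?_, by simpa using hg0, ?_⟩
    · rw [analyticAt_iff_eventually_differentiableAt] at hg ⊢
      filter_upwards [ht.eventually hg] with w hw
      exact differentiableAt_conj_conj_iff.2 hw
    · filter_upwards [ht.eventually he] with w hw
      rw [xiFn_conj, smul_eq_mul] at hw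
      have := congrArg conj hw
      rw [Complex.conj_conj, map_mul, map_pow, map_sub, Complex.conj_conj] at this
      rw [smul_eq_mul]
      exact this
  rw [zeroWeight, zeroWeight, analyticOrderNatAt, analyticOrderNatAt]
  cases h : analyticOrderAt xiFn ρ with
  | top =>
    cases h' : analyticOrderAt xiFn (conj ρ) with
    | top => rfl
    | coe n => rw [← Complex.conj_conj ρ, key _ n h'] at h; simp at h
  | coe n => rw [key ρ n h]

/-- `ρ ↦ 1 - conj ρ`. -/
def mirror : ℂ ≃ ℂ := (show Function.Involutive fun ρ : ℂ => 1 - conj ρ by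
  intro ρ; simp).toPerm

theorem mirror_apply (ρ : ℂ) : mirror ρ = 1 - conj ρ := rfl

theorem mirror_re (ρ : ℂ) : (mirror ρ).re = 1 - ρ.re := by simp [mirror_apply]

theorem mirror_im (ρ : ℂ) : (mirror ρ).im = ρ.im := by simp [mirror_apply]

theorem zeroWeight_mirror (ρ : ℂ) : zeroWeight (mirror ρ) = zeroWeight ρ := by
  rw [mirror_apply, zeroWeight_one_sub, zeroWeight_conj]

theorem xiFn_mirror {ρ : ℂ} (h : xiFn ρ = 0) : xiFn (mirror ρ) = 0 := by
  rw [mirror_apply, xiFn_one_sub, xiFn_conj, h, map_zero]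

/-- The Poisson kernel `x / (x² + d²)`. -/
def pois (x d : ℝ) : ℝ := x / (x ^ 2 + d ^ 2)

/-- The term of `re (ξ'/ξ)` at `σ + it`. -/
def lineTerm (σ t : ℝ) (ρ : ℂ) : ℝ := (zeroWeight ρ : ℝ) * pois (σ - ρ.re) (t - ρ.im)

theorem re_inv_sub (σ t : ℝ) (ρ : ℂ) :
    (((σ : ℂ) + t * I - ρ)⁻¹).re = pois (σ - ρ.re) (t - ρ.im) := by
  rw [inv_re, normSq_apply, pois]
  simp [sq]

/-- **`re (ξ'/ξ)` is the sum of the Poisson kernels.** -/
theorem hasSum_lineTerm {σ t : ℝ} (h : xiFn ((σ : ℂ) + t * I) ≠ 0) :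
    HasSum (lineTerm σ t) (xiLogDeriv ((σ : ℂ) + t * I)).re := by
  have h1 := (summable_norm_fracTerm ((σ : ℂ) + t * I)).of_norm.hasSum
  rw [← xiLogDeriv_sub_eq h] at h1
  have h3 := (Complex.hasSum_re h1).sub hasSum_re_inv
  rw [sub_re, re_xiLogDeriv_zero] at h3
  ring_nf at h3 ⊢
  refine h3.congr_fun fun ρ => ?_
  simp only [fracTerm, lineTerm, ← re_inv_sub, mul_re, natCast_re, natCast_im, zero_mul, sub_zero,
    add_re]
  ring

theorem abs_pois_pair_le {δ b d A : ℝ} (hδ : 0 ≤ δ) (hδ1 : δ ≤ 1) (hb : |b| ≤ 1 / 2)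
    (hA : 1 ≤ A) (hd : A ≤ |d|) :
    |pois (δ - b) d + pois (δ + b) d| ≤ (4 * δ + 16 / A ^ 2) * cauchy d := by
  obtain ⟨hb1, hb2⟩ := abs_le.1 hb
  have hd2 : A ^ 2 ≤ d ^ 2 := by
    rw [← sq_abs d]
    exact pow_le_pow_left₀ (by linarith) hd 2
  have hd1 : 1 ≤ d ^ 2 := le_trans (one_le_pow₀ hA) hd2
  have hd0 : d ≠ 0 := fun e => by rw [e] at hd1; norm_num at hd1
  have hone : ∀ x : ℝ, |x| ≤ 3 / 2 → |pois x d - x / d ^ 2| ≤ 27 / 8 / d ^ 4 := fun x hx => by
    have e : pois x d - x / d ^ 2 = -(x ^ 3) / ((x ^ 2 + d ^ 2) * d ^ 2) := by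
      rw [pois]
      field_simp
      ring
    rw [e, abs_div, abs_neg, abs_pow, abs_of_pos (show 0 < (x ^ 2 + d ^ 2) * d ^ 2 by positivity)]
    refine div_le_div₀ (by norm_num) ?_ (by positivity) ?_
    · exact (pow_le_pow_left₀ (abs_nonneg x) hx 3).trans (by norm_num)
    · nlinarith [sq_nonneg x]
  have h1 := hone (δ - b) (by rw [abs_le]; constructor <;> linarith)
  have h2 := hone (δ + b) (by rw [abs_le]; constructor <;> linarith)
  have hc : 1 / d ^ 2 ≤ 2 * cauchy d := by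
    rw [cauchy, ← mul_div_assoc, mul_one, div_le_div_iff₀ (by positivity) (by positivity)]
    linarith
  have e : (δ - b) / d ^ 2 + (δ + b) / d ^ 2 = 2 * δ * (1 / d ^ 2) := by ring
  have h4 : 27 / 8 / d ^ 4 ≤ 27 / 8 / A ^ 2 * (1 / d ^ 2) := by
    rw [div_mul_div_comm, mul_one]
    refine div_le_div_of_nonneg_left (by norm_num) (by positivity) ?_
    rw [show d ^ 4 = d ^ 2 * d ^ 2 by ring]
    exact mul_le_mul_of_nonneg_right hd2 (sq_nonneg d)
  have h5 : (2 * δ + 27 / 4 / A ^ 2) * (1 / d ^ 2) ≤ (2 * δ + 27 / 4 / A ^ 2) * (2 * cauchy d) :=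
    mul_le_mul_of_nonneg_left hc (by positivity)
  have h6 : (2 * δ + 27 / 4 / A ^ 2) * (2 * cauchy d) ≤ (4 * δ + 16 / A ^ 2) * cauchy d := by
    have : 0 ≤ cauchy d := by unfold cauchy; positivity
    have : 0 ≤ cauchy d / A ^ 2 := by positivity
    ring_nf at this ⊢
    linarith
  rw [abs_le] at h1 h2 ⊢
  have e2 : 0 ≤ 2 * δ * (1 / d ^ 2) := by positivity
  have e3 : 27 / 4 / A ^ 2 * (1 / d ^ 2) = 2 * (27 / 8 / A ^ 2 * (1 / d ^ 2)) := by ring
  constructor <;> linarith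

/-- **The distant zeros.** -/
theorem exists_far_le : ∃ C, 0 ≤ C ∧ ∀ (δ t A : ℝ) (S : Finset ℂ), 0 ≤ δ → δ ≤ 1 → 1 ≤ A →
    xiFn (((1 / 2 + δ : ℝ) : ℂ) + t * I) ≠ 0 → (∀ ρ, mirror ρ ∈ S ↔ ρ ∈ S) →
    (∀ ρ, xiFn ρ = 0 → ρ ∉ S → A ≤ |t - ρ.im|) →
      |(xiLogDeriv (((1 / 2 + δ : ℝ) : ℂ) + t * I)).re -
        ∑ ρ ∈ S, lineTerm (1 / 2 + δ) t ρ| ≤ C * (δ + 1 / A ^ 2) * ell t := by
  obtain ⟨C, hC, hwin⟩ := exists_window_sum
  refine ⟨8 * C, by positivity, fun δ t A S hδ hδ1 hA hxi hS hfar => ?_⟩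
  classical
  obtain ⟨σ, hσ⟩ : ∃ σ : ℝ, σ = 1 / 2 + δ := ⟨_, rfl⟩
  rw [← hσ] at hxi ⊢
  obtain ⟨R, hR⟩ : ∃ R, R = (xiLogDeriv ((σ : ℂ) + t * I)).re := ⟨_, rfl⟩
  have h1 := hR ▸ hasSum_lineTerm hxi
  have h2 : HasSum (lineTerm σ t ∘ mirror) R := mirror.hasSum_iff.2 h1
  have hsym : ∑ ρ ∈ S, lineTerm σ t (mirror ρ) = ∑ ρ ∈ S, lineTerm σ t ρ :=
    Finset.sum_nbij' mirror mirror.symm (fun a ha => (hS a).2 ha)
      (fun a ha => (hS _).1 (by rwa [Equiv.apply_symm_apply]))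
      (fun a _ => mirror.symm_apply_apply a) (fun a _ => mirror.apply_symm_apply a)
      fun a _ => rfl
  have hlim : Tendsto (fun F : Finset ℂ => (∑ ρ ∈ F, (lineTerm σ t ρ +
      (lineTerm σ t ∘ mirror) ρ)) - 2 * ∑ ρ ∈ S, lineTerm σ t ρ) atTop
      (𝓝 (R + R - 2 * ∑ ρ ∈ S, lineTerm σ t ρ)) :=
    Filter.Tendsto.sub_const (h1.add h2) _
  rw [show R + R - 2 * ∑ ρ ∈ S, lineTerm σ t ρ = 2 * (R - ∑ ρ ∈ S, lineTerm σ t ρ) by ring]
    at hlim
  rw [← hR]
  have hb : |2 * (R - ∑ ρ ∈ S, lineTerm σ t ρ)| ≤ (4 * δ + 16 / A ^ 2) * (C * ell t) := by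
    refine le_of_tendsto hlim.abs ?_
    filter_upwards [eventually_ge_atTop S] with F hF
    have hsplit : (∑ ρ ∈ F, (lineTerm σ t ρ + (lineTerm σ t ∘ mirror) ρ)) -
        2 * ∑ ρ ∈ S, lineTerm σ t ρ =
        ∑ ρ ∈ F \ S, (lineTerm σ t ρ + lineTerm σ t (mirror ρ)) := by
      rw [← Finset.sum_sdiff (show S ⊆ F from hF)]
      simp only [Function.comp_apply, Finset.sum_add_distrib, hsym]
      ring
    rw [hsplit]
    refine (Finset.abs_sum_le_sum_abs _ _).trans ?_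
    refine (Finset.sum_le_sum (g := fun ρ => (4 * δ + 16 / A ^ 2) *
      ((zeroWeight ρ : ℝ) * cauchy (t - ρ.im))) fun ρ hρ => ?_).trans ?_
    · rw [Finset.mem_sdiff] at hρ
      rw [lineTerm, lineTerm, zeroWeight_mirror, mirror_re, mirror_im, ← mul_add, abs_mul,
        Nat.abs_cast, mul_left_comm]
      rcases Nat.eq_zero_or_pos (zeroWeight ρ) with h0 | h0
      · simp [h0]
      have hz : xiFn ρ = 0 := by
        by_contra hne
        exact h0.ne' (zeroWeight_eq_zero hne)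
      obtain ⟨k1, k2⟩ := xiFn_zero_strip hz
      refine mul_le_mul_of_nonneg_left ?_ (Nat.cast_nonneg _)
      have := abs_pois_pair_le (b := ρ.re - 1 / 2) hδ hδ1
        (by rw [abs_le]; constructor <;> linarith) hA (hfar ρ hz hρ.2)
      rw [hσ]
      ring_nf at this ⊢
      linarith
    · rw [← Finset.mul_sum]
      refine mul_le_mul_of_nonneg_left ?_ (by positivity)
      rw [← Finset.sum_filter_of_ne (p := fun ρ => xiFn ρ = 0) fun ρ _ hne => ?_]
      · exact hwin t _ fun ρ hρ => (Finset.mem_filter.1 hρ).2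
      · by_contra hne'
        exact hne (by simp [zeroWeight_eq_zero hne'])
  rw [abs_mul, abs_two] at hb
  have := mul_nonneg hC (FA.ZeroFree.ell_pos t).le
  have h3 : (4 * δ + 16 / A ^ 2) * (C * ell t) ≤ 16 * (δ + 1 / A ^ 2) * (C * ell t) := by
    refine mul_le_mul_of_nonneg_right ?_ this
    rw [mul_add, mul_one_div]
    linarith
  linarith

end FA.LindelofZeros

end
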