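import Fermat.Agent.LindelofBacklund.Main
import Fermat.Agent.LindelofZeros.Poisson

/-!
# The argument of `ζ` on a vertical segment to the right of the critical line

Under the hypothesis of Lindelöf `re (ζ'/ζ)` has an integral `o (log T)` over every segment of
fixed length on a line `re s = 1/2 + δ` free of zeros: it is the sum of at most `o (log T)`
angles and of the change of the logarithm of the factor without zeros.
-/

set_option autoImplicit false

noncomputable section

namespace FA.LindelofZeros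

open Complex Metric Set MeasureTheory FA.RiemannMangoldt
open FA.BohrLandau (rightCount)
open scoped Real

/-- The integral of the Poisson kernel over `[a, b]`. -/
def kern (x γ a b : ℝ) : ℝ := Real.arctan ((b - γ) / x) - Real.arctan ((a - γ) / x)

theorem abs_kern_le (x γ a b : ℝ) : |kern x γ a b| ≤ π := by
  rw [kern, abs_le]
  have := Real.arctan_lt_pi_div_two ((b - γ) / x)
  have := Real.neg_pi_div_two_lt_arctan ((b - γ) / x)
  have := Real.arctan_lt_pi_div_two ((a - γ) / x)
  have := Real.neg_pi_div_two_lt_arctan ((a - γ) / x)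
  constructor <;> linarith

theorem intervalIntegrable_pois (x γ a b : ℝ) :
    IntervalIntegrable (fun y => pois x (y - γ)) volume a b := by
  rcases eq_or_ne x 0 with rfl | hx
  · simp [pois]
  refine Continuous.intervalIntegrable ?_ a b
  exact continuous_const.div (by fun_prop) fun y => by positivity

theorem integral_pois (x γ a b : ℝ) : (∫ y in a..b, pois x (y - γ)) = kern x γ a b := by
  rcases eq_or_ne x 0 with rfl | hx
  · simp [pois, kern]
  refine intervalIntegral.integral_eq_sub_of_hasDerivAt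
    (f := fun y => Real.arctan ((y - γ) / x)) (fun y _ => ?_) (intervalIntegrable_pois x γ a b)
  refine ((((hasDerivAt_id' y).sub_const γ).div_const x).arctan).congr_deriv ?_
  rw [pois]
  field_simp

/-- At most `π` from each root. -/
theorem abs_integral_roots (Z : Multiset ℂ) (x v a b : ℝ) :
    IntervalIntegrable (fun y => (Z.map fun ρ => pois (x - ρ.re) (y - v - ρ.im)).sum) volume a b ∧
      |∫ y in a..b, (Z.map fun ρ => pois (x - ρ.re) (y - v - ρ.im)).sum| ≤
        π * Multiset.card Z := by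
  induction Z using Multiset.induction_on with
  | empty => simp
  | cons ρ Z ih =>
    have h1 : IntervalIntegrable (fun y => pois (x - ρ.re) (y - v - ρ.im)) volume a b := by
      simp only [sub_sub]
      exact intervalIntegrable_pois _ _ a b
    simp only [Multiset.map_cons, Multiset.sum_cons, Multiset.card_cons]
    refine ⟨h1.add ih.1, ?_⟩
    rw [intervalIntegral.integral_add h1 ih.1]
    refine (abs_add_le _ _).trans ?_
    simp only [sub_sub] at ih ⊢
    rw [integral_pois, Nat.cast_succ]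
    linarith [abs_kern_le (x - ρ.re) (v + ρ.im) a b, ih.2]

theorem re_sum_inv (Z : Multiset ℂ) (x w : ℝ) :
    ((Z.map fun ρ => ((x : ℂ) + w * I - ρ)⁻¹).sum).re =
      (Z.map fun ρ => pois (x - ρ.re) (w - ρ.im)).sum := by
  induction Z using Multiset.induction_on with
  | empty => simp
  | cons ρ Z ih =>
    simp only [Multiset.map_cons, Multiset.sum_cons, add_re, ih, re_inv_sub]

/-- `re (ζ'/ζ)` on the line `re s = σ`. -/
def zetaRe (σ y : ℝ) : ℝ :=
  (deriv riemannZeta ((σ : ℂ) + y * I) / riemannZeta ((σ : ℂ) + y * I)).re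

theorem zeta_ne_zero_line {σ y : ℝ} (hσ : 0 < σ) (hy : 1 ≤ y)
    (hfree : ∀ ρ, xiFn ρ = 0 → ρ.re ≠ σ) :
    (σ : ℂ) + y * I ≠ 1 ∧ riemannZeta ((σ : ℂ) + y * I) ≠ 0 := by
  have h1 : (σ : ℂ) + y * I ≠ 1 := fun e => by
    have := congrArg Complex.im e
    simp at this
    linarith
  exact ⟨h1, fun h => hfree _ ((xiFn_eq_zero_iff (by simpa using hσ) h1).2 h) (by simp)⟩

theorem continuousOn_zetaRe {σ : ℝ} (hσ : 0 < σ) (hfree : ∀ ρ, xiFn ρ = 0 → ρ.re ≠ σ) :
    ContinuousOn (zetaRe σ) (Ici 1) := fun y hy => by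
  obtain ⟨h1, h0⟩ := zeta_ne_zero_line hσ hy hfree
  have ha : AnalyticAt ℂ riemannZeta ((σ : ℂ) + y * I) :=
    DifferentiableOn.analyticAt (fun z hz =>
      (differentiableAt_riemannZeta hz).differentiableWithinAt) (isOpen_ne.mem_nhds h1)
  exact (continuous_re.continuousAt.comp' (ContinuousAt.comp'
    (g := fun s => deriv riemannZeta s / riemannZeta s) (f := fun v : ℝ => (σ : ℂ) + v * I)
    (ha.deriv.continuousAt.div ha.continuousAt h0) (by fun_prop))).continuousWithinAt

/-- **A short segment.** -/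
theorem exists_segment_short {δ : ℝ} (hδ : 0 < δ) (hδ2 : δ ≤ 1 / 2)
    (hS : FA.Backlund.ZerosSparse) (hfree : ∀ ρ, xiFn ρ = 0 → ρ.re ≠ 1 / 2 + δ) {ε : ℝ}
    (hε : 0 < ε) : ∃ T₀ : ℝ, 2 ≤ T₀ ∧ ∀ a b : ℝ, T₀ ≤ a → a ≤ b → b ≤ a + δ / 2 →
      |∫ y in a..b, zetaRe (1 / 2 + δ) y| ≤ ε * Real.log a := by
  obtain ⟨T₁, hT₁⟩ := FA.Backlund.exists_small_log (half_pos hδ) (by linarith)
    (fun η hη => hS.step (by linarith) hη) (show 0 < ε / 6 by positivity)
  refine ⟨max T₁ 2, le_max_right _ _, fun a b ha hab hb => ?_⟩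
  obtain ⟨N, g, hgd, ⟨Z, K, hcard, hfac⟩, hN, hg, -⟩ := hT₁ a ((le_max_left _ _).trans ha)
  have ha2 : 2 ≤ a := (le_max_right _ _).trans ha
  obtain ⟨c, hc⟩ : ∃ c : ℂ, c = ((1 + 1 / 2 : ℝ) : ℂ) + a * I := ⟨_, rfl⟩
  rw [← hc] at hfac
  obtain ⟨z, hz⟩ : ∃ z : ℝ → ℂ, z = fun y => ((δ - 1 : ℝ) : ℂ) + (y - a : ℝ) * I := ⟨_, rfl⟩
  have hzn : ∀ y ∈ Icc a b, ‖z y‖ ≤ 1 - δ / 2 := fun y hy => by
    rw [hz]
    refine (norm_add_le _ _).trans ?_
    rw [norm_mul, norm_I, mul_one, Complex.norm_real, Complex.norm_real, Real.norm_eq_abs,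
      Real.norm_eq_abs, abs_of_nonpos (by linarith), abs_of_nonneg (by linarith [hy.1])]
    linarith [hy.2]
  have hzb : ∀ y ∈ Icc a b, z y ∈ ball (0 : ℂ) (1 - δ / 2 / 4) := fun y hy =>
    mem_ball_zero_iff.2 (by linarith [hzn y hy])
  have hcz : ∀ y : ℝ, c + z y = ((1 / 2 + δ : ℝ) : ℂ) + y * I := fun y => by
    rw [hc, hz]
    push_cast
    ring
  have hpt : ∀ y ∈ Icc a b, zetaRe (1 / 2 + δ) y =
      (Z.map fun ρ => pois (δ - 1 - ρ.re) (y - a - ρ.im)).sum + (deriv g (z y)).re := by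
    intro y hy
    obtain ⟨-, h0⟩ := zeta_ne_zero_line (by linarith : 0 < 1 / 2 + δ)
      (by linarith [hy.1] : 1 ≤ y) hfree
    obtain ⟨w, hw⟩ : ∃ w, w = z y := ⟨_, rfl⟩
    have hwb : w ∈ ball (0 : ℂ) (1 - δ / 2 / 4) := hw ▸ hzb y hy
    have he := hfac w (mem_ball_zero_iff.1 hwb)
    rw [← hcz y, ← hw] at h0
    rw [zetaRe, ← hcz y, ← hw]
    have hP : rootProd Z w ≠ 0 := fun h => h0 (by rw [he, h, zero_mul])
    have hK : K ≠ 0 := fun h => h0 (by rw [he, h, zero_mul, mul_zero])
    have hne : ∀ ρ ∈ Z, w ≠ ρ := fun ρ hρ e => hP (by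
      rw [rootProd, Multiset.prod_eq_zero_iff]
      exact Multiset.mem_map.2 ⟨ρ, hρ, sub_eq_zero.2 e⟩)
    have hg' := (hgd.differentiableAt (isOpen_ball.mem_nhds hwb)).hasDerivAt
    have hprod := (hasDerivAt_rootProd hne).mul (hg'.cexp.const_mul K)
    have hev : (fun v => riemannZeta (c + v)) =ᶠ[nhds w]
        fun v => rootProd Z v * (K * Complex.exp (g v)) := by
      filter_upwards [isOpen_ball.mem_nhds hwb] with v hv
      exact hfac v (mem_ball_zero_iff.1 hv)
    have hd := (hprod.congr_of_eventuallyEq hev).deriv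
    rw [deriv_comp_const_add] at hd
    have := Complex.exp_ne_zero (g w)
    rw [hd, he, show (rootProd Z w * (Z.map fun ρ => (w - ρ)⁻¹).sum * (K * cexp (g w)) +
        rootProd Z w * (K * (cexp (g w) * deriv g w))) / (rootProd Z w * (K * cexp (g w))) =
        (Z.map fun ρ => (w - ρ)⁻¹).sum + deriv g w by field_simp, add_re,
      show w = ((δ - 1 : ℝ) : ℂ) + (y - a : ℝ) * I by rw [hw, hz], re_sum_inv]
  have hgc : ContinuousOn (fun y => (deriv g (z y)).re) (uIcc a b) := by
    rw [uIcc_of_le hab]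
    exact continuous_re.comp_continuousOn ((hgd.deriv isOpen_ball).continuousOn.comp
      (hz ▸ (by fun_prop : Continuous fun y : ℝ =>
        ((δ - 1 : ℝ) : ℂ) + (y - a : ℝ) * I)).continuousOn hzb)
  obtain ⟨hRi, hRb⟩ := abs_integral_roots Z (δ - 1) a a b
  rw [intervalIntegral.integral_congr fun y hy => hpt y (uIcc_of_le hab ▸ hy),
    intervalIntegral.integral_add hRi hgc.intervalIntegrable,
    intervalIntegral.integral_eq_sub_of_hasDerivAt (f := fun y => (g (z y)).im) (fun y hy => ?_)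
      hgc.intervalIntegrable]
  · have hl : 0 ≤ Real.log a := Real.log_nonneg (by linarith)
    have h1 := (abs_im_le_norm _).trans (hg (z a) (hzn a ⟨le_rfl, hab⟩))
    have h2 := (abs_im_le_norm _).trans (hg (z b) (hzn b ⟨hab, le_rfl⟩))
    rw [hcard] at hRb
    have h3 : π * N ≤ 4 * (ε / 6 * Real.log a) :=
      mul_le_mul Real.pi_le_four hN (Nat.cast_nonneg _) (by norm_num)
    refine (abs_add_le _ _).trans ?_
    have h4 := abs_sub (g (z b)).im (g (z a)).im
    linarith
  · rw [uIcc_of_le hab] at hy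
    have hin : HasDerivAt z I y := by
      rw [hz]
      simpa using (((hasDerivAt_id' y).sub_const a).ofReal_comp.mul_const I).const_add
        ((δ - 1 : ℝ) : ℂ)
    have hd := ((hgd.differentiableAt (isOpen_ball.mem_nhds (hzb y hy))).hasDerivAt.comp y hin)
    exact (imCLM.hasFDerivAt.comp_hasDerivAt y hd).congr_deriv (by simp)

/-- **A segment of any fixed length.** -/
theorem exists_segment {δ : ℝ} (hδ : 0 < δ) (hδ2 : δ ≤ 1 / 2) (hS : FA.Backlund.ZerosSparse)
    (hfree : ∀ ρ, xiFn ρ = 0 → ρ.re ≠ 1 / 2 + δ) (n : ℕ) {ε : ℝ} (hε : 0 < ε) :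
    ∃ T₀ : ℝ, ∀ a b : ℝ, T₀ ≤ a → a ≤ b → b ≤ a + n * (δ / 2) →
      |∫ y in a..b, zetaRe (1 / 2 + δ) y| ≤ ε * Real.log a := by
  induction n generalizing ε with
  | zero =>
    refine ⟨1, fun a b ha hab hb => ?_⟩
    rw [show b = a by push_cast at hb; linarith, intervalIntegral.integral_same, abs_zero]
    exact mul_nonneg hε.le (Real.log_nonneg ha)
  | succ n ih =>
    obtain ⟨T₁, hT2, hT₁⟩ := exists_segment_short hδ hδ2 hS hfree (half_pos hε)
    obtain ⟨T₂, hT₂⟩ := ih (ε := ε / 4) (by positivity)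
    refine ⟨max T₁ T₂, fun a b ha hab hb => ?_⟩
    have ha2 : 2 ≤ a := hT2.trans ((le_max_left _ _).trans ha)
    obtain ⟨c, hc⟩ : ∃ c, c = min b (a + δ / 2) := ⟨_, rfl⟩
    have hac : a ≤ c := hc ▸ le_min hab (by linarith)
    have hcb : c ≤ b := hc ▸ min_le_left _ _
    have hca : c ≤ a + δ / 2 := hc ▸ min_le_right _ _
    have hbn : b ≤ c + n * (δ / 2) := by
      rcases le_total b (a + δ / 2) with h | h
      · rw [hc, min_eq_left h]
        linarith [show 0 ≤ (n : ℝ) * (δ / 2) by positivity]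
      · rw [hc, min_eq_right h]
        push_cast at hb
        linarith
    have hi : ∀ u v : ℝ, a ≤ u → u ≤ v →
        IntervalIntegrable (zetaRe (1 / 2 + δ)) volume u v := fun u v hu huv =>
      ((continuousOn_zetaRe (by linarith) hfree).mono (by
        rw [uIcc_of_le huv]
        exact fun y hy => show (1 : ℝ) ≤ y by linarith [hy.1])).intervalIntegrable
    rw [← intervalIntegral.integral_add_adjacent_intervals (hi a c le_rfl hac) (hi c b hac hcb)]
    refine (abs_add_le _ _).trans ?_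
    have h1 := hT₁ a c ((le_max_left _ _).trans ha) hac hca
    have h2 := hT₂ c b (((le_max_right _ _).trans ha).trans hac) hcb hbn
    have hlog : Real.log c ≤ 2 * Real.log a := by
      rw [show (2 : ℝ) * Real.log a = Real.log (a ^ 2) by rw [Real.log_pow]; norm_num]
      exact Real.log_le_log (by linarith) (by nlinarith)
    have := mul_le_mul_of_nonneg_left hlog (show 0 ≤ ε / 4 by positivity)
    linarith

end FA.LindelofZeros

end
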