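import Fermat.Agent.LindelofZeros.Segment

/-!
# Kernels, near zeros and their number

The integral of the Poisson kernel over `[a, b]` is nearly `π` for an ordinate inside and nearly
`0` for one outside. Few zeros near a height are far from the critical line, if few are to its
right.
-/

set_option autoImplicit false

noncomputable section

namespace FA.LindelofZeros

open Complex Set MeasureTheory FA.RiemannMangoldt FA.ExplicitFormula
open FA.ZeroFree (ell)
open FA.BohrLandau (zetaMult rightCount)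
open FA.PairCorrelation (cauchy exists_window_sum arctan_le_of_nonneg)
open scoped Real

theorem half_pi_sub_inv_le {u : ℝ} (hu : 0 < u) : π / 2 - 1 / u ≤ Real.arctan u := by
  have h := arctan_le_of_nonneg (u := u⁻¹) (by positivity)
  rw [Real.arctan_inv_of_pos hu, ← one_div] at h
  linarith

theorem kern_nonneg {x γ a b : ℝ} (hx : 0 < x) (hab : a ≤ b) : 0 ≤ kern x γ a b :=
  sub_nonneg.2 (Real.arctan_strictMono.monotone
    (div_le_div_of_nonneg_right (by linarith) hx.le))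

theorem kern_ge {x γ a b η : ℝ} (hx : 0 < x) (hη : 0 < η) (ha : a + η ≤ γ) (hb : γ + η ≤ b) :
    π - 2 * (x / η) ≤ kern x γ a b := by
  have h1 := half_pi_sub_inv_le (show 0 < (b - γ) / x from div_pos (by linarith) hx)
  have h2 := half_pi_sub_inv_le (show 0 < (γ - a) / x from div_pos (by linarith) hx)
  rw [one_div_div] at h1 h2
  have h3 : x / (b - γ) ≤ x / η := div_le_div_of_nonneg_left hx.le hη (by linarith)
  have h4 : x / (γ - a) ≤ x / η := div_le_div_of_nonneg_left hx.le hη (by linarith)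
  rw [kern, show (a - γ) / x = -((γ - a) / x) by ring, Real.arctan_neg]
  linarith

theorem kern_le_outside {x γ a b η : ℝ} (hx : 0 < x) (hη : 0 < η)
    (h : γ + η ≤ a ∨ b + η ≤ γ) : kern x γ a b ≤ x / η := by
  rcases h with h | h
  · have h1 := half_pi_sub_inv_le (show 0 < (a - γ) / x from div_pos (by linarith) hx)
    rw [one_div_div] at h1
    have h3 : x / (a - γ) ≤ x / η := div_le_div_of_nonneg_left hx.le hη (by linarith)
    rw [kern]
    linarith [(Real.arctan_lt_pi_div_two ((b - γ) / x))]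
  · have h1 := half_pi_sub_inv_le (show 0 < (γ - b) / x from div_pos (by linarith) hx)
    rw [one_div_div] at h1
    have h3 : x / (γ - b) ≤ x / η := div_le_div_of_nonneg_left hx.le hη (by linarith)
    rw [kern, show (b - γ) / x = -((γ - b) / x) by ring, Real.arctan_neg]
    linarith [(Real.neg_pi_div_two_lt_arctan ((a - γ) / x))]

/-- `re (ξ'/ξ) = log t / 2 + re (ζ'/ζ) + O (1)`. -/
theorem abs_re_xiLogDeriv_sub_le {σ t : ℝ} (hσ : 0 < σ) (hσ2 : σ ≤ 2) (ht : 4 ≤ t)
    (hfree : ∀ ρ, xiFn ρ = 0 → ρ.re ≠ σ) :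
    |(xiLogDeriv ((σ : ℂ) + t * I)).re - (Real.log t / 2 + zetaRe σ t)| ≤ 16 := by
  obtain ⟨h1, h0⟩ := zeta_ne_zero_line hσ (by linarith : 1 ≤ t) hfree
  obtain ⟨s, hs⟩ : ∃ s : ℂ, s = (σ : ℂ) + t * I := ⟨_, rfl⟩
  have him : s.im = t := by simp [hs]
  have hre : s.re = σ := by simp [hs]
  rw [← hs] at h1 h0
  rw [zetaRe, ← hs]
  rw [xiLogDeriv_eq_reg (by linarith) h1 h0]
  have k1 : |((s - 1)⁻¹).re| ≤ 1 := by
    refine (abs_re_le_norm _).trans ?_
    rw [norm_inv]
    refine inv_le_one_of_one_le₀ ?_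
    have := abs_im_le_norm (s - 1)
    rw [sub_im, him, one_im, sub_zero, abs_of_pos (by linarith)] at this
    linarith
  have k2 := (abs_re_le_norm _).trans (FA.PairCorrelation.norm_gammaReg_sub_log_le
    (s := s) (by linarith) (by linarith))
  rw [him, abs_of_pos (show 0 < t by linarith), sub_re, ofReal_re] at k2
  have k3 : Real.log t ≤ Real.log (t + 2) := Real.log_le_log (by linarith) (by linarith)
  have k4 : Real.log (t + 2) ≤ Real.log t + 2 := by
    have := Real.log_le_sub_one_of_pos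
      (show 0 < (t + 2) / t from div_pos (by linarith) (by linarith))
    rw [Real.log_div (by linarith) (by linarith)] at this
    have : (t + 2) / t ≤ 2 := by
      rw [div_le_iff₀ (by linarith)]
      linarith
    linarith
  rw [abs_le] at k1 k2 ⊢
  simp only [add_re]
  constructor <;> linarith

/-- The sum of the kernels of a set of zeros from the logarithmic derivative of `ξ`. -/
theorem abs_kernSum_sub_le {σ a b E : ℝ} (S : Finset ℂ) (hσ : 0 < σ) (hσ2 : σ ≤ 2) (ha : 4 ≤ a)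
    (hab : a ≤ b) (hb : b ≤ 2 * a) (hfree : ∀ ρ, xiFn ρ = 0 → ρ.re ≠ σ)
    (hE : ∀ y ∈ Icc a b,
      |(xiLogDeriv ((σ : ℂ) + y * I)).re - ∑ ρ ∈ S, lineTerm σ y ρ| ≤ E) :
    |∑ ρ ∈ S, (zeroWeight ρ : ℝ) * kern (σ - ρ.re) ρ.im a b - (b - a) / 2 * Real.log a| ≤
      |∫ y in a..b, zetaRe σ y| + (b - a) * (E + 17) := by
  have hlog : ContinuousOn (fun y : ℝ => Real.log y / 2 - Real.log a / 2) (uIcc a b) := by
    rw [uIcc_of_le hab]
    exact ((Real.continuousOn_log.mono fun y hy => show y ≠ 0 by linarith [hy.1]).div_const 2).sub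
      continuousOn_const
  have hz : IntervalIntegrable (zetaRe σ) volume a b :=
    ((continuousOn_zetaRe hσ hfree).mono (by
      rw [uIcc_of_le hab]
      exact fun y hy => show (1 : ℝ) ≤ y by linarith [hy.1])).intervalIntegrable
  have hterm : ∀ ρ ∈ S, IntervalIntegrable (fun y => lineTerm σ y ρ) volume a b :=
    fun ρ _ => (intervalIntegrable_pois _ _ a b).const_mul _
  have hsum : IntervalIntegrable (fun y => ∑ ρ ∈ S, lineTerm σ y ρ) volume a b := by
    simpa only [Finset.sum_fn] using IntervalIntegrable.sum S hterm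
  have hint : (∫ y in a..b, ∑ ρ ∈ S, lineTerm σ y ρ) =
      ∑ ρ ∈ S, (zeroWeight ρ : ℝ) * kern (σ - ρ.re) ρ.im a b := by
    rw [intervalIntegral.integral_finsetSum hterm]
    refine Finset.sum_congr rfl fun ρ _ => ?_
    simp only [lineTerm]
    rw [intervalIntegral.integral_const_mul, integral_pois]
  obtain ⟨G, hG⟩ : ∃ G : ℝ → ℝ, G = fun y => (∑ ρ ∈ S, lineTerm σ y ρ) - zetaRe σ y -
      Real.log a / 2 := ⟨_, rfl⟩
  have hGb : ∀ y ∈ Icc a b, |G y| ≤ E + 17 := fun y hy => by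
    have k1 := hE y hy
    have k2 := abs_re_xiLogDeriv_sub_le hσ hσ2 (show 4 ≤ y by linarith [hy.1]) hfree
    have k3 : Real.log a ≤ Real.log y := Real.log_le_log (by linarith) hy.1
    have k4 : Real.log y ≤ Real.log a + 1 := by
      have := Real.log_le_log (show 0 < y by linarith [hy.1]) (hy.2.trans hb)
      rw [Real.log_mul (by norm_num) (by linarith)] at this
      linarith [Real.log_two_lt_d9]
    rw [hG]
    rw [abs_le] at k1 k2 ⊢
    simp only
    constructor <;> linarith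
  have hmain : |∫ y in a..b, G y| ≤ (E + 17) * |b - a| := by
    rw [← Real.norm_eq_abs]
    refine intervalIntegral.norm_integral_le_of_norm_le_const fun y hy => ?_
    rw [Set.uIoc_of_le hab] at hy
    exact hGb y ⟨hy.1.le, hy.2⟩
  rw [hG, intervalIntegral.integral_sub (hsum.sub hz) intervalIntegrable_const,
    intervalIntegral.integral_sub hsum hz, hint, intervalIntegral.integral_const, smul_eq_mul,
    abs_of_nonneg (by linarith : 0 ≤ b - a)] at hmain
  rw [abs_le] at hmain ⊢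
  have := neg_abs_le (∫ y in a..b, zetaRe σ y)
  have := le_abs_self (∫ y in a..b, zetaRe σ y)
  constructor <;> linarith

/-- The zeros with ordinate within `R` of `T`. -/
def nearZeros (T R : ℝ) : Finset ℂ :=
  (zerosUpTo (|T| + R)).filter fun ρ => |ρ.im - T| ≤ R

theorem mem_nearZeros {T R : ℝ} {ρ : ℂ} :
    ρ ∈ nearZeros T R ↔ xiFn ρ = 0 ∧ |ρ.im - T| ≤ R := by
  rw [nearZeros, Finset.mem_filter, mem_zerosUpTo]
  refine ⟨fun h => ⟨h.1.1, h.2⟩, fun h => ⟨⟨h.1, ?_⟩, h.2⟩⟩
  have := abs_sub_abs_le_abs_sub ρ.im T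
  linarith [h.2]

theorem mirror_mem_nearZeros {T R : ℝ} (ρ : ℂ) :
    mirror ρ ∈ nearZeros T R ↔ ρ ∈ nearZeros T R := by
  rw [mem_nearZeros, mem_nearZeros, mirror_im]
  refine and_congr_left' ⟨fun h => ?_, xiFn_mirror⟩
  have := xiFn_mirror h
  rwa [show mirror (mirror ρ) = ρ by simp [mirror_apply]] at this

theorem zeroCount_sub_eq {T h R : ℝ} (hT : 0 ≤ T) (hh : 0 ≤ h) (hR : h ≤ R) :
    (zeroCount (T + h) : ℝ) - zeroCount T =
      ∑ ρ ∈ (nearZeros T R).filter (fun ρ => T < ρ.im ∧ ρ.im ≤ T + h), (zeroWeight ρ : ℝ) := by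
  classical
  have e : zeroCount (T + h) = zeroCount T +
      ∑ ρ ∈ (nearZeros T R).filter (fun ρ => T < ρ.im ∧ ρ.im ≤ T + h), zeroWeight ρ := by
    rw [zeroCount_eq, zeroCount_eq,
      ← Finset.sum_filter_add_sum_filter_not (finite_zetaZeros (T + h)).toFinset
        (fun ρ => ρ.im ≤ T)]
    congr 1
    · refine Finset.sum_congr (Finset.ext fun ρ => ?_) fun _ _ => rfl
      simp only [Finset.mem_filter, Set.Finite.mem_toFinset, mem_zetaZeros_iff]
      exact ⟨fun h' => ⟨h'.1.1, h'.1.2.1, h'.2⟩,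
        fun h' => ⟨⟨h'.1, h'.2.1, h'.2.2.trans (by linarith)⟩, h'.2.2⟩⟩
    · refine Finset.sum_congr (Finset.ext fun ρ => ?_) fun _ _ => rfl
      simp only [Finset.mem_filter, Set.Finite.mem_toFinset, mem_zetaZeros_iff, mem_nearZeros,
        not_le]
      refine ⟨fun h' => ⟨⟨h'.1.1, ?_⟩, h'.2, h'.1.2.2⟩,
        fun h' => ⟨⟨h'.1.1, hT.trans_lt h'.2.1, h'.2.2⟩, h'.2.1⟩⟩
      rw [abs_le]
      constructor <;> linarith [h'.2, h'.1.2.2]
  rw [e]
  push_cast
  ring

/-- The zeros near `T` have total multiplicity `O ((1 + R²) log T)`. -/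
theorem exists_near_weight : ∃ C, 0 ≤ C ∧ ∀ T R : ℝ,
    ∑ ρ ∈ nearZeros T R, (zeroWeight ρ : ℝ) ≤ C * (1 + R ^ 2) * ell T := by
  obtain ⟨C, hC, h⟩ := exists_window_sum
  refine ⟨C, hC, fun T R => ?_⟩
  refine (Finset.sum_le_sum (g := fun ρ => (1 + R ^ 2) * ((zeroWeight ρ : ℝ) * cauchy (T - ρ.im)))
    fun ρ hρ => ?_).trans ?_
  · rw [mul_left_comm]
    refine le_mul_of_one_le_right (Nat.cast_nonneg _) ?_
    have h1 := (mem_nearZeros.1 hρ).2
    rw [abs_sub_comm] at h1
    have h2 : (T - ρ.im) ^ 2 ≤ R ^ 2 := by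
      rw [← sq_abs (T - ρ.im)]
      exact pow_le_pow_left₀ (abs_nonneg _) h1 2
    rw [cauchy, mul_one_div, one_le_div (by positivity)]
    linarith
  · rw [← Finset.mul_sum]
    calc (1 + R ^ 2) * _ ≤ (1 + R ^ 2) * (C * ell T) := mul_le_mul_of_nonneg_left
          (h T _ fun ρ hρ => (mem_nearZeros.1 hρ).1) (by positivity)
      _ = _ := by ring

theorem rightCount_iterate {σ η T₀ : ℝ} (hη : 0 ≤ η) (hT₀ : 1 ≤ T₀)
    (h : ∀ T : ℝ, T₀ ≤ T → (rightCount σ (T + 1) : ℝ) ≤ rightCount σ T + η * Real.log T)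
    (n : ℕ) {T : ℝ} (hT : T₀ ≤ T) :
    (rightCount σ (T + n) : ℝ) ≤ rightCount σ T + n * (η * Real.log (T + n)) := by
  induction n with
  | zero => simp
  | succ n ih =>
    have hn : (0 : ℝ) ≤ n := Nat.cast_nonneg n
    have h1 := h (T + n) (by linarith)
    push_cast
    rw [← add_assoc]
    have h2 : Real.log (T + n) ≤ Real.log (T + n + 1) := Real.log_le_log (by linarith) (by linarith)
    have h3 := mul_le_mul_of_nonneg_left h2 hη
    have h4 := mul_le_mul_of_nonneg_left h3 hn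
    linarith

/-- **Few zeros near `T` are far from the critical line.** -/
theorem exists_off_le (hS : FA.Backlund.ZerosSparse) {d : ℝ} (hd : 0 < d) {R : ℝ} (hR : 0 ≤ R)
    {η : ℝ} (hη : 0 < η) : ∃ T₀ : ℝ, ∀ T : ℝ, T₀ ≤ T →
      ∑ ρ ∈ (nearZeros T R).filter (fun ρ => d ≤ |ρ.re - 1 / 2|), (zeroWeight ρ : ℝ) ≤
        η * Real.log T := by
  classical
  obtain ⟨n, hn⟩ : ∃ n, n = ⌈2 * R + 1⌉₊ := ⟨_, rfl⟩
  have hn2 : 2 * R + 1 ≤ n := hn ▸ Nat.le_ceil _
  have hn0 : (0 : ℝ) < n := by linarith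
  obtain ⟨T₁, hT₁⟩ := hS.step (σ := 1 / 2 + d) (by linarith)
    (show 0 < η / (4 * n) by positivity)
  refine ⟨max T₁ 1 + R + 2 + n, fun T hT => ?_⟩
  have hT1 : 1 ≤ max T₁ 1 := le_max_right _ _
  obtain ⟨P, hP⟩ : ∃ P, P = (nearZeros T R).filter fun ρ => 1 / 2 + d ≤ ρ.re := ⟨_, rfl⟩
  have hsub : (nearZeros T R).filter (fun ρ => d ≤ |ρ.re - 1 / 2|) ⊆ P ∪ P.image mirror := by
    intro ρ hρ
    rw [Finset.mem_filter] at hρ
    rw [Finset.mem_union]
    rcases le_abs.1 hρ.2 with h | h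
    · exact Or.inl (hP ▸ Finset.mem_filter.2 ⟨hρ.1, by linarith⟩)
    · refine Or.inr (Finset.mem_image.2 ⟨mirror ρ, hP ▸ Finset.mem_filter.2
        ⟨(mirror_mem_nearZeros ρ).2 hρ.1, by rw [mirror_re]; linarith⟩, by simp [mirror_apply]⟩)
  refine (Finset.sum_le_sum_of_subset_of_nonneg hsub fun _ _ _ => Nat.cast_nonneg _).trans ?_
  refine le_trans (le_add_of_nonneg_right (Finset.sum_nonneg (s := P ∩ P.image mirror)
    (f := fun ρ => (zeroWeight ρ : ℝ)) fun _ _ => Nat.cast_nonneg _)) ?_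
  rw [Finset.sum_union_inter, Finset.sum_image fun a _ b _ e => mirror.injective e]
  simp only [zeroWeight_mirror]
  obtain ⟨U, hU⟩ : ∃ U, U = T - R - 1 := ⟨_, rfl⟩
  have hmain : (rightCount (1 / 2 + d) U : ℝ) + ∑ ρ ∈ P, (zeroWeight ρ : ℝ) ≤
      rightCount (1 / 2 + d) (U + n) := by
    have hw : ∀ ρ ∈ P, zeroWeight ρ = zetaMult ρ := fun ρ hρ => by
      rw [hP, Finset.mem_filter, mem_nearZeros] at hρ
      obtain ⟨h0, h1⟩ := xiFn_zero_strip hρ.1.1
      exact analyticOrderNatAt_xiFn h0 fun e => by rw [e] at h1; simp at h1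
    have := FA.Backlund.rightCount_add_sum_le (σ := 1 / 2 + d) (T := U) (T' := U + n)
      (by linarith) (by linarith) P fun ρ hρ => by
        rw [hP, Finset.mem_filter, mem_nearZeros] at hρ
        obtain ⟨h0, h1⟩ := xiFn_zero_strip hρ.1.1
        obtain ⟨k1, k2⟩ := abs_le.1 hρ.1.2
        exact ⟨(xiFn_eq_zero_iff h0 fun e => by rw [e] at h1; simp at h1).1 hρ.1.1, h0, h1,
          hρ.2, by linarith, by linarith⟩
    rw [← Finset.sum_congr rfl hw] at this
    exact_mod_cast this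
  have hit := rightCount_iterate (σ := 1 / 2 + d) (show 0 ≤ η / (4 * n) by positivity) hT1
    (fun S hS' => hT₁ S ((le_max_left _ _).trans hS')) n (T := U) (by linarith)
  have hlog : Real.log (U + n) ≤ 2 * Real.log T := by
    rw [show (2 : ℝ) * Real.log T = Real.log (T ^ 2) by rw [Real.log_pow]; norm_num]
    exact Real.log_le_log (by linarith) (by nlinarith)
  have h4 : (n : ℝ) * (η / (4 * n) * Real.log (U + n)) ≤ η / 2 * Real.log T := by
    rw [show (n : ℝ) * (η / (4 * n) * Real.log (U + n)) = η / 4 * Real.log (U + n) by field_simp]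
    have := mul_le_mul_of_nonneg_left hlog (show 0 ≤ η / 4 by positivity)
    linarith
  linarith

end FA.LindelofZeros

end
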